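import Mathlib
import Fermat.Agent.S28.Defs
import Fermat.Prelude.Def_ModularCurve_X0ModL

/-!
# S28 / M4a (helper53): the degree step

For a prime `p`, a field `K` with a primitive `p`-th root of unity and a modular polynomial `Φ`
of level `p`, and a subfield `E ⊆ K((q^p))` of `K((q))` containing `j(q^p)`:

* `j(q)` is integral over `E`, and its minimal polynomial over `E` has degree `≥ p`
  (its conjugates `j(ζ^b q)`, `b < p`, are pairwise distinct roots);
* the degree is `≥ p + 1` unless `j(q^{p²}) ∈ E`.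
-/

set_option autoImplicit false

noncomputable section

namespace Fermat.Agent.S28.H53

open ModularCurve Polynomial Fermat.Agent.S28

section Scale

variable {R : Type*} [CommRing R]

theorem qScale_one_apply (x : LaurentSeries R) : qScale (1 : Rˣ) x = x := by
  ext n
  simp [qScale_coeff]

theorem qScale_qExpand_of_pow_eq_one (c : Rˣ) (p : ℕ) [NeZero p] (hc : c ^ p = 1)
    (x : LaurentSeries R) : qScale c (qExpand R p x) = qExpand R p x := by
  ext n
  rw [qScale_coeff]
  by_cases hn : (p : ℤ) ∣ n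
  · obtain ⟨m, rfl⟩ := hn
    have h1 : (c ^ ((p : ℤ) * m) : Rˣ) = 1 := by
      rw [zpow_mul, zpow_natCast, hc, one_zpow]
    rw [h1]
    simp
  · rw [qExpand_coeff_of_not_dvd p x hn, mul_zero]

theorem jS_one_left (A : Type*) [CommRing A] (p : ℕ) [NeZero p] :
    jS A 1 p = qExpand A p (jqModC A) := by
  rw [jS, qSub_apply, vq_eq_qExpand, qScale_one_apply]

theorem jS_one_right (A : Type*) [CommRing A] (c : Aˣ) :
    jS A c 1 = qScale c (jqModC A) := by
  rw [jS, qSub_apply, vq_eq_qExpand, qExpand_one_apply]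

theorem evalY_map {A B : Type*} [CommRing A] [CommRing B] (f : A →+* B) (y : A)
    (Φ : Polynomial (Polynomial ℤ)) : (evalY y Φ).map f = evalY (f y) Φ := by
  unfold evalY
  rw [Polynomial.coe_mapRingHom, Polynomial.coe_mapRingHom, Polynomial.map_map]
  congr 1
  apply Polynomial.ringHom_ext
  · intro a
    simp
  · simp

theorem evalY_monic {A : Type*} [CommRing A] (y : A) {Φ : Polynomial (Polynomial ℤ)}
    (hΦ : Φ.Monic) : (evalY y Φ).Monic := by
  unfold evalY
  rw [Polynomial.coe_mapRingHom]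
  exact hΦ.map _

end Scale

section Step

variable (K : Type) [Field K]

/-- The factorisation of a modular polynomial of level `p` over a field `K`, in Prelude terms. -/
theorem modPoly_fact_field {p : ℕ} [NeZero p] {Φ : Polynomial (Polynomial ℤ)} (hΦ : IsModPoly p Φ)
    (ζ : Kˣ) (hζ : IsPrimitiveRoot ζ p) :
    evalY (qExpand K p (jqModC K)) Φ =
      (X - C (qExpand K (p * p) (jqModC K))) *
        ∏ b ∈ Finset.range p, (X - C (qScale (ζ ^ b) (jqModC K))) := by
  have h := hΦ.fact K ζ hζ
  unfold ModPolyFact at h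
  rw [jS_one_left, jS_one_left] at h
  rw [h]
  congr 1
  refine Finset.prod_congr rfl fun b _ => ?_
  rw [jS_one_right]

/-- `qScale c` fixes `K((q^p))` pointwise when `c^p = 1`. -/
theorem qScale_eq_self_of_mem_fieldRange {p : ℕ} [NeZero p] (c : Kˣ) (hc : c ^ p = 1)
    {x : LaurentSeries K} (hx : x ∈ (qExpandAlgHomC K p).fieldRange) : qScale c x = x := by
  obtain ⟨y, rfl⟩ := hx
  exact qScale_qExpand_of_pow_eq_one c p hc y

/-- The conjugates `j(ζ^b q)`, `b < p`, are pairwise distinct. -/
theorem qScale_pow_jqModC_injOn {p : ℕ} (ζ : Kˣ) (hζ : IsPrimitiveRoot ζ p) :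
    Set.InjOn (fun b : ℕ => qScale (ζ ^ b) (jqModC K)) (Finset.range p : Set ℕ) := by
  intro a ha b hb hab
  have h := congrArg (fun x : LaurentSeries K => x.coeff (-1)) hab
  simp only [qScale_coeff, coeff_jqModC_neg_one, mul_one] at h
  have h2 : (ζ ^ a) ^ (-1 : ℤ) = (ζ ^ b) ^ (-1 : ℤ) := Units.ext h
  rw [zpow_neg_one, zpow_neg_one, inv_inj] at h2
  exact hζ.pow_inj (Finset.mem_range.mp ha) (Finset.mem_range.mp hb) h2

/-- `j(q)` is a root of `Φ(X, j(q^p))`, over any subfield containing `j(q^p)`. -/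
theorem aeval_jq_evalY {p : ℕ} [NeZero p] {Φ : Polynomial (Polynomial ℤ)}
    (hΦ : IsModPoly p Φ) (ζ : Kˣ) (hζ : IsPrimitiveRoot ζ p)
    (E : IntermediateField K (LaurentSeries K))
    (hjp : qExpand K p (jqModC K) ∈ E) :
    aeval (jqModC K) (evalY (⟨qExpand K p (jqModC K), hjp⟩ : E) Φ) = 0 := by
  have hfact := modPoly_fact_field K hΦ ζ hζ
  have hQE : (evalY (⟨qExpand K p (jqModC K), hjp⟩ : E) Φ).map
      (algebraMap E (LaurentSeries K)) = evalY (qExpand K p (jqModC K)) Φ := by
    rw [evalY_map]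
    rfl
  have hppos : 0 < p := Nat.pos_of_ne_zero (NeZero.ne p)
  rw [aeval_def, eval₂_eq_eval_map, hQE, hfact, eval_mul, eval_prod]
  rw [Finset.prod_eq_zero (Finset.mem_range.mpr hppos)
    (by rw [pow_zero, qScale_one_apply]; simp), mul_zero]

/-- **Degree step.** Over a subfield `E ⊆ K((q^p))` containing `j(q^p)`, the series `j(q)` is
integral of degree `≥ p`, and of degree `≥ p + 1` unless `j(q^{p²}) ∈ E`. -/
theorem natDegree_minpoly_jq {p : ℕ} [NeZero p] {Φ : Polynomial (Polynomial ℤ)}
    (hΦ : IsModPoly p Φ) (ζ : Kˣ) (hζ : IsPrimitiveRoot ζ p)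
    (E : IntermediateField K (LaurentSeries K))
    (hE : E ≤ (qExpandAlgHomC K p).fieldRange)
    (hjp : qExpand K p (jqModC K) ∈ E) :
    IsIntegral E (jqModC K) ∧ p ≤ (minpoly E (jqModC K)).natDegree ∧
      (qExpand K (p * p) (jqModC K) ∉ E → p + 1 ≤ (minpoly E (jqModC K)).natDegree) := by
  classical
  set j := jqModC K with hj
  set jp := qExpand K p j with hjpdef
  set jpp := qExpand K (p * p) j with hjppdef
  set r : ℕ → LaurentSeries K := fun b => qScale (ζ ^ b) j with hr
  have hfact : evalY jp Φ = (X - C jpp) * ∏ b ∈ Finset.range p, (X - C (r b)) :=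
    modPoly_fact_field K hΦ ζ hζ
  -- the polynomial over `E`
  set QE : Polynomial E := evalY (⟨jp, hjp⟩ : E) Φ with hQEdef
  have hQE : QE.map (algebraMap E (LaurentSeries K)) = evalY jp Φ := by
    rw [hQEdef, evalY_map]
    rfl
  have hQEmonic : QE.Monic := evalY_monic _ hΦ.monic
  have hppos : 0 < p := Nat.pos_of_ne_zero (NeZero.ne p)
  have hr0 : r 0 = j := by
    simp only [hr, pow_zero]
    exact qScale_one_apply j
  have hQroot : aeval j QE = 0 := by
    rw [aeval_def, eval₂_eq_eval_map, hQE, hfact, eval_mul, eval_prod]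
    rw [Finset.prod_eq_zero (Finset.mem_range.mpr hppos) (by rw [hr0]; simp), mul_zero]
  have hint : IsIntegral E j := ⟨QE, hQEmonic, hQroot⟩
  refine ⟨hint, ?_⟩
  obtain ⟨m, hm⟩ : ∃ m : Polynomial E, m = minpoly E j := ⟨_, rfl⟩
  obtain ⟨mL, hmL⟩ : ∃ mL : Polynomial (LaurentSeries K),
      mL = m.map (algebraMap E (LaurentSeries K)) := ⟨_, rfl⟩
  have hmmonic : m.Monic := hm ▸ minpoly.monic hint
  have hmLmonic : mL.Monic := hmL ▸ hmmonic.map _
  have hmLdeg : mL.natDegree = m.natDegree := hmL ▸ hmmonic.natDegree_map _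
  -- the automorphisms `q ↦ ζ^b q` fix `E`
  have hζp : ∀ b : ℕ, (ζ ^ b) ^ p = 1 := fun b => by
    rw [← pow_mul, mul_comm, pow_mul, hζ.pow_eq_one, one_pow]
  let θ : ℕ → (LaurentSeries K →ₐ[E] LaurentSeries K) := fun b =>
    { (qScale (ζ ^ b) : LaurentSeries K →+* LaurentSeries K) with
      commutes' := fun e => qScale_eq_self_of_mem_fieldRange K (ζ ^ b) (hζp b) (hE e.2) }
  have hroot : ∀ b : ℕ, mL.eval (r b) = 0 := by
    intro b
    have h1 : aeval (θ b j) m = θ b (aeval j m) := Polynomial.aeval_algHom_apply (θ b) j m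
    rw [hm, minpoly.aeval, map_zero, ← hm] at h1
    rw [hmL, eval_map, ← aeval_def]
    exact h1
  have hinj : Set.InjOn r (Finset.range p : Set ℕ) := qScale_pow_jqModC_injOn K ζ hζ
  -- degree ≥ p
  have hge : p ≤ m.natDegree := by
    rw [← hmLdeg]
    have hsub : ((Finset.range p).image r).val ⊆ mL.roots := by
      intro x hx
      rw [Finset.mem_val, Finset.mem_image] at hx
      obtain ⟨b, -, rfl⟩ := hx
      exact (mem_roots hmLmonic.ne_zero).mpr (hroot b)
    have := card_le_degree_of_subset_roots hsub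
    rwa [Finset.card_image_of_injOn hinj, Finset.card_range] at this
  rw [← hm]
  refine ⟨hge, fun hnot => ?_⟩
  by_contra hlt
  have hdeg : m.natDegree = p := by omega
  apply hnot
  -- `mL = ∏ (X - r b)`
  obtain ⟨P, hP⟩ : ∃ P : Polynomial (LaurentSeries K),
      P = ∏ b ∈ Finset.range p, (X - C (r b)) := ⟨_, rfl⟩
  have hPmonic : P.Monic := hP ▸ monic_prod_of_monic _ _ fun b _ => monic_X_sub_C (r b)
  have hPdeg : P.natDegree = p := by
    rw [hP, natDegree_prod_of_monic _ _ fun b _ => monic_X_sub_C (r b)]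
    simp
  have hPdvd : P ∣ mL := by
    rw [hP]
    refine Finset.prod_dvd_of_coprime ?_ fun b _ => dvd_iff_isRoot.mpr (hroot b)
    intro a ha b hb hab
    refine isCoprime_X_sub_C_of_isUnit_sub (IsUnit.mk0 _ ?_)
    exact sub_ne_zero.mpr fun h => hab (hinj ha hb h)
  have hmLP : mL = P :=
    eq_of_monic_of_dvd_of_natDegree_le hPmonic hmLmonic hPdvd (by rw [hmLdeg, hdeg, hPdeg])
  obtain ⟨g, hg⟩ : m ∣ QE := hm ▸ minpoly.dvd E j hQroot
  have h2 : mL * g.map (algebraMap E (LaurentSeries K)) = mL * (X - C jpp) := by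
    calc mL * g.map (algebraMap E (LaurentSeries K))
        = (m * g).map (algebraMap E (LaurentSeries K)) := by rw [Polynomial.map_mul, hmL]
      _ = (X - C jpp) * P := by rw [← hg, hQE, hfact, hP]
      _ = mL * (X - C jpp) := by rw [hmLP, mul_comm]
  have h3 : g.map (algebraMap E (LaurentSeries K)) = X - C jpp :=
    mul_left_cancel₀ hmLmonic.ne_zero h2
  have h4 := congrArg (fun f : Polynomial (LaurentSeries K) => f.coeff 0) h3
  simp only [coeff_map, coeff_sub, coeff_X_zero, coeff_C_zero, zero_sub] at h4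
  have h5 : jpp = -(algebraMap E (LaurentSeries K) (g.coeff 0)) := by rw [h4, neg_neg]
  rw [h5]
  exact E.neg_mem (g.coeff 0).2

theorem natDegree_evalY {A : Type*} [CommRing A] [Nontrivial A] (y : A)
    {Φ : Polynomial (Polynomial ℤ)} (hΦ : Φ.Monic) : (evalY y Φ).natDegree = Φ.natDegree := by
  unfold evalY
  rw [Polynomial.coe_mapRingHom]
  exact hΦ.natDegree_map _

/-- If `j(q^p) ∉ K(j(q))` then `Φ(X, j(q^p))` is the minimal polynomial of `j(q)` over
`K(j(q^p))`. -/
theorem minpoly_jq_adjoin {p : ℕ} [NeZero p] {Φ : Polynomial (Polynomial ℤ)}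
    (hΦ : IsModPoly p Φ) (ζ : Kˣ) (hζ : IsPrimitiveRoot ζ p)
    (hB : qExpand K p (jqModC K) ∉ IntermediateField.adjoin K {jqModC K}) :
    minpoly (IntermediateField.adjoin K {qExpand K p (jqModC K)}) (jqModC K) =
      evalY (⟨qExpand K p (jqModC K), IntermediateField.subset_adjoin K _ rfl⟩ :
        IntermediateField.adjoin K {qExpand K p (jqModC K)}) Φ := by
  set E := IntermediateField.adjoin K {qExpand K p (jqModC K)} with hEdef
  have hjp : qExpand K p (jqModC K) ∈ E := IntermediateField.subset_adjoin K _ rfl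
  have hEmap : E = (IntermediateField.adjoin K {jqModC K}).map (qExpandAlgHomC K p) := by
    rw [IntermediateField.adjoin_map, Set.image_singleton, qExpandAlgHomC_apply]
  have hE : E ≤ (qExpandAlgHomC K p).fieldRange := by
    rw [hEmap]
    intro x hx
    obtain ⟨y, -, rfl⟩ := hx
    exact ⟨y, rfl⟩
  have hnot : qExpand K (p * p) (jqModC K) ∉ E := by
    rw [hEmap]
    rintro ⟨y, hy, hyeq⟩
    apply hB
    have h1 : qExpand K p y = qExpand K p (qExpand K p (jqModC K)) := by
      rw [qExpand_qExpand]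
      exact hyeq
    rw [← qExpand_injective p h1]
    exact hy
  obtain ⟨hint, -, hsucc⟩ := natDegree_minpoly_jq K hΦ ζ hζ E hE hjp
  have hdvd := minpoly.dvd E (jqModC K) (aeval_jq_evalY K hΦ ζ hζ E hjp)
  exact (eq_of_monic_of_dvd_of_natDegree_le (minpoly.monic hint) (evalY_monic _ hΦ.monic) hdvd
    (by rw [natDegree_evalY _ hΦ.monic, hΦ.natDegree_eq]; exact hsucc hnot)).symm

/-- A lower bound for a relative degree from the degree of a minimal polynomial. -/
theorem natDegree_minpoly_le_relrank {F L : Type*} [Field F] [Field L] [Algebra F L]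
    {E E' : IntermediateField F L} (h : E ≤ E') {x : L} (hx : x ∈ E') (hint : IsIntegral E x) :
    ((minpoly E x).natDegree : Cardinal) ≤ IntermediateField.relrank E E' := by
  rw [IntermediateField.relrank_eq_rank_of_le h]
  have hle : IntermediateField.adjoin E {x} ≤ IntermediateField.extendScalars h :=
    IntermediateField.adjoin_simple_le_iff.mpr hx
  have := IntermediateField.adjoin.finiteDimensional hint
  have h1 : Module.rank E (IntermediateField.adjoin E {x}) ≤
      Module.rank E (IntermediateField.extendScalars h) :=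
    LinearMap.rank_le_of_injective (IntermediateField.inclusion hle).toLinearMap
      (IntermediateField.inclusion hle).injective
  rw [← IntermediateField.adjoin.finrank hint, Module.finrank_eq_rank]
  exact h1

end Step

end Fermat.Agent.S28.H53
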