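import Mathlib
import Fermat.Agent.S28.H53.Step

/-!
# S28 / M4a (helper53): the degree lower bound in the tower

For a field `K` (with enough roots of unity), modular polynomials `Φ_p` for the primes `p ∣ N` and
the non-membership statements `(B_M)`: `j(q^p) ∉ K(j(q^d) : d ∣ M)` for `p ∤ M`, `M * p ∣ N`, we get

  `ψ(N) ≤ [K(j(q^d) : d ∣ N) : K(j(q^N))]`.

The arithmetic lemmas on `dedekindPsi` are copied from helper77's `S20/H77/Index.lean`.
-/

set_option autoImplicit false

noncomputable section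

namespace Fermat.Agent.S28.H53

open ModularCurve Polynomial Fermat.Agent.S28

section Psi

theorem dedekindPsi_mul_prime_of_dvd {N p : ℕ} (hp : p.Prime) (hN : N ≠ 0) (hpN : p ∣ N) :
    dedekindPsi (N * p) = p * dedekindPsi N := by
  have hset : (N * p).divisors.filter Squarefree = N.divisors.filter Squarefree := by
    ext d
    simp only [Finset.mem_filter, Nat.mem_divisors, ne_eq, mul_eq_zero, not_or]
    constructor
    · rintro ⟨⟨hd, -⟩, hsq⟩
      refine ⟨⟨?_, hN⟩, hsq⟩
      by_cases hpd : p ∣ d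
      · obtain ⟨d', rfl⟩ := hpd
        have hcop : p.Coprime d' := (Nat.squarefree_mul_iff.1 hsq).1
        have hd' : d' ∣ N := by
          rw [mul_comm N p] at hd
          exact (Nat.mul_dvd_mul_iff_left hp.pos).1 hd
        exact hcop.mul_dvd_of_dvd_of_dvd hpN hd'
      · exact (((Nat.Prime.coprime_iff_not_dvd hp).2 hpd).symm).dvd_of_dvd_mul_right hd
    · rintro ⟨⟨hd, -⟩, hsq⟩
      exact ⟨⟨hd.mul_right p, hN, hp.ne_zero⟩, hsq⟩
  rw [dedekindPsi, dedekindPsi, hset, Finset.mul_sum]
  refine Finset.sum_congr rfl fun d hd => ?_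
  have hdN : d ∣ N := (Nat.mem_divisors.1 (Finset.mem_filter.1 hd).1).1
  rw [mul_comm N p, Nat.mul_div_assoc p hdN]

theorem dedekindPsi_mul_prime_of_not_dvd {N p : ℕ} (hp : p.Prime) (hN : N ≠ 0) (hpN : ¬ p ∣ N) :
    dedekindPsi (N * p) = (p + 1) * dedekindPsi N := by
  have hset : (N * p).divisors.filter Squarefree =
      N.divisors.filter Squarefree ∪ (N.divisors.filter Squarefree).image (· * p) := by
    ext d
    simp only [Finset.mem_filter, Nat.mem_divisors, ne_eq, mul_eq_zero, not_or, Finset.mem_union,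
      Finset.mem_image]
    constructor
    · rintro ⟨⟨hd, -⟩, hsq⟩
      by_cases hpd : p ∣ d
      · right
        obtain ⟨d', rfl⟩ := hpd
        have hd' : d' ∣ N := by
          rw [mul_comm N p] at hd
          exact (Nat.mul_dvd_mul_iff_left hp.pos).1 hd
        exact ⟨d', ⟨⟨hd', hN⟩, (Nat.squarefree_mul_iff.1 hsq).2.2⟩, mul_comm _ _⟩
      · left
        exact ⟨⟨(((Nat.Prime.coprime_iff_not_dvd hp).2 hpd).symm).dvd_of_dvd_mul_right hd, hN⟩,
          hsq⟩
    · rintro (⟨⟨hd, -⟩, hsq⟩ | ⟨d', ⟨⟨hd', -⟩, hsq'⟩, rfl⟩)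
      · exact ⟨⟨hd.mul_right p, hN, hp.ne_zero⟩, hsq⟩
      · refine ⟨⟨Nat.mul_dvd_mul_right hd' p, hN, hp.ne_zero⟩, ?_⟩
        have hcop : d'.Coprime p :=
          ((Nat.Prime.coprime_iff_not_dvd hp).2 fun h => hpN (h.trans hd')).symm
        exact (Nat.squarefree_mul hcop).2 ⟨hsq', hp.prime.squarefree⟩
  have hdisj : Disjoint (N.divisors.filter Squarefree)
      ((N.divisors.filter Squarefree).image (· * p)) := by
    rw [Finset.disjoint_left]
    intro d hd hd2
    obtain ⟨d', -, rfl⟩ := Finset.mem_image.1 hd2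
    exact hpN ((dvd_mul_left p d').trans (Nat.mem_divisors.1 (Finset.mem_filter.1 hd).1).1)
  rw [dedekindPsi, dedekindPsi, hset, Finset.sum_union hdisj,
    Finset.sum_image (fun x _ y _ h => Nat.eq_of_mul_eq_mul_right hp.pos h), add_mul, one_mul,
    Finset.mul_sum]
  congr 1
  · refine Finset.sum_congr rfl fun d hd => ?_
    have hdN : d ∣ N := (Nat.mem_divisors.1 (Finset.mem_filter.1 hd).1).1
    rw [mul_comm N p, Nat.mul_div_assoc p hdN]
  · refine Finset.sum_congr rfl fun d _ => ?_
    rw [Nat.mul_div_mul_right _ _ hp.pos]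

end Psi

section Tower

variable (K : Type) [Field K]

/-- The base field `K(j(q^M))`. -/
def baseC (M : ℕ) [NeZero M] : IntermediateField K (LaurentSeries K) :=
  IntermediateField.adjoin K {qExpand K M (jqModC K)}

theorem baseC_le_full (M : ℕ) [NeZero M] : baseC K M ≤ modularFunctionFieldFullC K M := by
  rw [baseC, IntermediateField.adjoin_le_iff, Set.singleton_subset_iff]
  exact jqModCd_mem_full K M dvd_rfl

theorem map_baseC (M p : ℕ) [NeZero M] [NeZero p] :
    (baseC K M).map (qExpandAlgHomC K p) = baseC K (M * p) := by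
  rw [baseC, IntermediateField.adjoin_map, Set.image_singleton, qExpandAlgHomC_apply,
    qExpand_qExpand, baseC, qExpand_congr (mul_comm M p)]

/-- Multiplicativity of the degree along the step `M → M * p`. -/
theorem relrank_step (M p : ℕ) [NeZero M] [NeZero p] :
    IntermediateField.relrank (baseC K (M * p)) (modularFunctionFieldFullC K (M * p)) =
      IntermediateField.relrank (baseC K M) (modularFunctionFieldFullC K M) *
        IntermediateField.relrank ((modularFunctionFieldFullC K M).map (qExpandAlgHomC K p))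
          (modularFunctionFieldFullC K (M * p)) := by
  rw [← map_baseC, ← IntermediateField.relrank_map_map (baseC K M) (modularFunctionFieldFullC K M)
    (qExpandAlgHomC K p)]
  exact (IntermediateField.relrank_mul_relrank
    (IntermediateField.map_mono _ (baseC_le_full K M)) (full_degeneracyC_map_le K M p)).symm

theorem map_full_le_fieldRange (M p : ℕ) [NeZero p] :
    (modularFunctionFieldFullC K M).map (qExpandAlgHomC K p) ≤ (qExpandAlgHomC K p).fieldRange := by
  intro x hx
  obtain ⟨y, -, rfl⟩ := hx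
  exact ⟨y, rfl⟩

theorem qExpand_mem_map_full (M p : ℕ) [NeZero p] :
    qExpand K p (jqModC K) ∈ (modularFunctionFieldFullC K M).map (qExpandAlgHomC K p) :=
  ⟨jqModC K, jqModC_mem_full K M, rfl⟩

/-- **Step, weak form**: `[K(j_d : d ∣ Mp) : K(j_{pd} : d ∣ M)] ≥ p`. -/
theorem step_ge {p : ℕ} [NeZero p] {Φ : Polynomial (Polynomial ℤ)} (hΦ : IsModPoly p Φ)
    (ζ : Kˣ) (hζ : IsPrimitiveRoot ζ p) (M : ℕ) :
    (p : Cardinal) ≤
      IntermediateField.relrank ((modularFunctionFieldFullC K M).map (qExpandAlgHomC K p))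
        (modularFunctionFieldFullC K (M * p)) := by
  obtain ⟨hint, hge, -⟩ := natDegree_minpoly_jq K hΦ ζ hζ _ (map_full_le_fieldRange K M p)
    (qExpand_mem_map_full K M p)
  exact (Nat.cast_le.mpr hge).trans (natDegree_minpoly_le_relrank
    (full_degeneracyC_map_le K M p) (jqModC_mem_full K (M * p)) hint)

/-- **Step, strong form**: if `j(q^p) ∉ K(j_d : d ∣ M)` then
`[K(j_d : d ∣ Mp) : K(j_{pd} : d ∣ M)] ≥ p + 1`. -/
theorem step_ge_succ {p : ℕ} [NeZero p] {Φ : Polynomial (Polynomial ℤ)} (hΦ : IsModPoly p Φ)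
    (ζ : Kˣ) (hζ : IsPrimitiveRoot ζ p) (M : ℕ)
    (hBM : qExpand K p (jqModC K) ∉ modularFunctionFieldFullC K M) :
    ((p + 1 : ℕ) : Cardinal) ≤
      IntermediateField.relrank ((modularFunctionFieldFullC K M).map (qExpandAlgHomC K p))
        (modularFunctionFieldFullC K (M * p)) := by
  obtain ⟨hint, -, hsucc⟩ := natDegree_minpoly_jq K hΦ ζ hζ _ (map_full_le_fieldRange K M p)
    (qExpand_mem_map_full K M p)
  have hnot : qExpand K (p * p) (jqModC K) ∉
      (modularFunctionFieldFullC K M).map (qExpandAlgHomC K p) := by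
    rintro ⟨y, hy, hyeq⟩
    apply hBM
    have h1 : qExpand K p y = qExpand K p (qExpand K p (jqModC K)) := by
      rw [qExpand_qExpand]
      exact hyeq
    rw [← qExpand_injective p h1]
    exact hy
  exact (Nat.cast_le.mpr (hsucc hnot)).trans (natDegree_minpoly_le_relrank
    (full_degeneracyC_map_le K M p) (jqModC_mem_full K (M * p)) hint)

theorem full_one_le_baseC : modularFunctionFieldFullC K 1 ≤ baseC K 1 := by
  rw [modularFunctionFieldFullC, IntermediateField.adjoin_le_iff]
  rintro x ⟨d, hne, hd, rfl⟩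
  have hd1 : d = 1 := Nat.dvd_one.mp hd
  subst hd1
  exact IntermediateField.subset_adjoin K _ rfl

/-- **Degree lower bound** (abstract form): from modular polynomials, primitive roots of unity and
the non-membership statements `(B_M)`. -/
theorem dedekindPsi_le_relrank (N : ℕ) [NeZero N]
    (hprim : ∀ p : ℕ, p.Prime → p ∣ N → ∃ ζ : Kˣ, IsPrimitiveRoot ζ p)
    (hmod : ∀ p : ℕ, p.Prime → p ∣ N → ∃ Φ : Polynomial (Polynomial ℤ), IsModPoly p Φ)
    (hBM : ∀ (p M : ℕ) (hp : p.Prime), ¬ p ∣ M → M * p ∣ N →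
      @qExpand K _ p ⟨hp.ne_zero⟩ (jqModC K) ∉ modularFunctionFieldFullC K M) :
    (dedekindPsi N : Cardinal) ≤
      IntermediateField.relrank (baseC K N) (modularFunctionFieldFullC K N) := by
  suffices h : ∀ M : ℕ, ∀ hM : M ≠ 0, M ∣ N → (dedekindPsi M : Cardinal) ≤
      IntermediateField.relrank (@baseC K _ M ⟨hM⟩) (modularFunctionFieldFullC K M) from
    h N (NeZero.ne N) dvd_rfl
  intro M
  induction M using Nat.strong_induction_on with
  | _ M ih =>
    intro hM hMN
    rcases eq_or_ne M 1 with rfl | hM1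
    · rw [dedekindPsi_one, Nat.cast_one,
        IntermediateField.relrank_eq_one_of_le (full_one_le_baseC K)]
    · obtain ⟨p, hp, hpM⟩ := Nat.exists_prime_and_dvd hM1
      obtain ⟨M', rfl⟩ : ∃ M', M = M' * p := ⟨M / p, (Nat.div_mul_cancel hpM).symm⟩
      have hM' : M' ≠ 0 := fun h => hM (by rw [h, zero_mul])
      have : NeZero M' := ⟨hM'⟩
      have : NeZero p := ⟨hp.ne_zero⟩
      have hlt : M' < M' * p := by
        calc M' = M' * 1 := (mul_one M').symm
          _ < M' * p := Nat.mul_lt_mul_of_pos_left hp.one_lt (Nat.pos_of_ne_zero hM')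
      have hM'N : M' ∣ N := (Dvd.intro p rfl).trans hMN
      have hpN : p ∣ N := (Dvd.intro_left M' rfl).trans hMN
      have ih' := ih M' hlt hM' hM'N
      obtain ⟨ζ, hζ⟩ := hprim p hp hpN
      obtain ⟨Φ, hΦ⟩ := hmod p hp hpN
      rw [relrank_step K M' p]
      by_cases hpM' : p ∣ M'
      · rw [dedekindPsi_mul_prime_of_dvd hp hM' hpM', mul_comm, Nat.cast_mul]
        exact mul_le_mul' ih' (step_ge K hΦ ζ hζ M')
      · rw [dedekindPsi_mul_prime_of_not_dvd hp hM' hpM', mul_comm, Nat.cast_mul]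
        exact mul_le_mul' ih' (step_ge_succ K hΦ ζ hζ M' (hBM p M' hp hpM' hMN))

end Tower

end Fermat.Agent.S28.H53
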