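import Mathlib
import Fermat.Agent.S28.H53.Tower
import Fermat.Agent.S28.Formal

/-!
# S28 / M4a (helper53): finiteness, and the lower bound over an algebraically closed field

* `isIntegral_baseC_qExpand` : every `j(q^d)`, `d ∣ N`, is integral over `K(j(q^N))`
  (any field `K`, from the modular equations).
* `relrank_baseC_full_lt_aleph0` : `[K(j(q^d) : d ∣ N) : K(j(q^N))] < ℵ₀`.
* `dedekindPsi_le_relfinrank_algClosed_of_BM` : the lower bound `ψ(N) ≤ [.. : ..]` over an
  algebraically closed field of characteristic `ℓ ∤ N`, from the statement `(B_M)`.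
-/

set_option autoImplicit false

noncomputable section

namespace Fermat.Agent.S28.H53

open ModularCurve Polynomial Fermat.Agent.S28

section Shapes

variable (K : Type*) [Field K]

/-- The canonical generating set (skeleton shape) is the Prelude set `divisorExpansionsC`. -/
theorem setOf_jS_eq_divisorExpansionsC (N : ℕ) (hN : N ≠ 0) :
    {x : LaurentSeries K | ∃ d, d ∣ N ∧ x = jS K 1 d} = divisorExpansionsC K N := by
  ext x
  constructor
  · rintro ⟨d, hd, rfl⟩
    have hne : NeZero d := ⟨fun h => hN (by rw [h] at hd; exact zero_dvd_iff.mp hd)⟩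
    exact ⟨d, hne, hd, jS_one_left K d⟩
  · rintro ⟨d, hne, hd, rfl⟩
    exact ⟨d, hd, (jS_one_left K d).symm⟩

theorem adjoin_setOf_jS_eq_full (N : ℕ) (hN : N ≠ 0) :
    IntermediateField.adjoin K {x : LaurentSeries K | ∃ d, d ∣ N ∧ x = jS K 1 d} =
      modularFunctionFieldFullC K N := by
  rw [setOf_jS_eq_divisorExpansionsC K N hN, modularFunctionFieldFullC]

end Shapes

section Finite

variable (K : Type) [Field K]

/-- One modular-equation step: `j(q^d)` is integral over any field containing `j(q^{dp})`. -/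
theorem isIntegral_jS_of_mem {F : Type*} [Field F] [Algebra F (LaurentSeries K)]
    {p : ℕ} {Φ : Polynomial (Polynomial ℤ)} (hΦ : IsModPoly p Φ) (hp : p.Prime)
    (d : ℕ) (hd : d ≠ 0) (C : IntermediateField F (LaurentSeries K))
    (h : jS K 1 (d * p) ∈ C) : IsIntegral C (jS K 1 d) := by
  refine ⟨evalY (⟨jS K 1 (d * p), h⟩ : C) Φ, evalY_monic _ hΦ.monic, ?_⟩
  rw [Polynomial.eval₂_eq_eval_map, evalY_map]
  have h1 := (hΦ.eval_jS (R := K) hp (1 : Kˣ) d hd).1
  rw [one_pow] at h1
  exact h1

theorem isIntegral_baseC_jS_step (N : ℕ) [NeZero N]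
    {p : ℕ} {Φ : Polynomial (Polynomial ℤ)} (hΦ : IsModPoly p Φ) (hp : p.Prime)
    (d : ℕ) (hd : d ≠ 0) (h : IsIntegral (baseC K N) (jS K 1 (d * p))) :
    IsIntegral (baseC K N) (jS K 1 d) := by
  have h1 : IsIntegral (algebraicClosure (baseC K N) (LaurentSeries K)) (jS K 1 d) :=
    isIntegral_jS_of_mem K hΦ hp d hd _ (mem_algebraicClosure_iff'.mpr h)
  have halg : Algebra.IsAlgebraic (baseC K N)
      (algebraicClosure (baseC K N) (LaurentSeries K)) := algebraicClosure.isAlgebraic _ _
  have hint : Algebra.IsIntegral (baseC K N)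
      (algebraicClosure (baseC K N) (LaurentSeries K)) :=
    Algebra.isAlgebraic_iff_isIntegral.mp halg
  exact isIntegral_trans _ h1

/-- Every `j(q^d)`, `d ∣ N`, is integral over `K(j(q^N))`. -/
theorem isIntegral_baseC_jS (N : ℕ) [NeZero N]
    (hmod : ∀ p : ℕ, p.Prime → p ∣ N → ∃ Φ : Polynomial (Polynomial ℤ), IsModPoly p Φ) :
    ∀ e d : ℕ, d * e = N → IsIntegral (baseC K N) (jS K 1 d) := by
  intro e
  induction e using Nat.strong_induction_on with
  | _ e ih =>
    intro d hde
    have hd : d ≠ 0 := fun h => NeZero.ne N (by rw [← hde, h, zero_mul])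
    have he : e ≠ 0 := fun h => NeZero.ne N (by rw [← hde, h, mul_zero])
    rcases eq_or_ne e 1 with rfl | he1
    · rw [mul_one] at hde
      subst hde
      have hmem : jS K 1 d ∈ baseC K d := by
        rw [jS_one_left]
        exact IntermediateField.subset_adjoin K _ rfl
      exact (isIntegral_algebraMap (R := baseC K d) (x := ⟨jS K 1 d, hmem⟩))
    · obtain ⟨p, hp, hpe⟩ := Nat.exists_prime_and_dvd he1
      obtain ⟨e', rfl⟩ := hpe
      have he' : e' ≠ 0 := fun h => he (by rw [h, mul_zero])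
      have hlt : e' < p * e' := by
        calc e' = 1 * e' := (one_mul e').symm
          _ < p * e' := Nat.mul_lt_mul_of_pos_right hp.one_lt (Nat.pos_of_ne_zero he')
      have hpN : p ∣ N := ⟨d * e', by rw [← hde]; ring⟩
      obtain ⟨Φ, hΦ⟩ := hmod p hp hpN
      exact isIntegral_baseC_jS_step K N hΦ hp d hd (ih e' hlt (d * p) (by rw [← hde]; ring))

theorem finite_divisorExpansionsC (N : ℕ) [NeZero N] : (divisorExpansionsC K N).Finite := by
  classical
  refine Set.Finite.subset (Finset.finite_toSet (N.divisors.image fun d => jS K 1 d)) ?_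
  rintro x ⟨d, hne, hd, rfl⟩
  rw [Finset.mem_coe, Finset.mem_image]
  exact ⟨d, Nat.mem_divisors.mpr ⟨hd, NeZero.ne N⟩, jS_one_left K d⟩

/-- `K(j(q^d) : d ∣ N)` is a finite extension of `K(j(q^N))`. -/
theorem relrank_baseC_full_lt_aleph0 (N : ℕ) [NeZero N]
    (hmod : ∀ p : ℕ, p.Prime → p ∣ N → ∃ Φ : Polynomial (Polynomial ℤ), IsModPoly p Φ) :
    IntermediateField.relrank (baseC K N) (modularFunctionFieldFullC K N) < Cardinal.aleph0 := by
  have hfin : Finite (divisorExpansionsC K N) := (finite_divisorExpansionsC K N).to_subtype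
  have hint : ∀ x ∈ divisorExpansionsC K N, IsIntegral (baseC K N) x := by
    rintro x ⟨d, hne, ⟨e, rfl⟩, rfl⟩
    rw [← jS_one_left]
    exact isIntegral_baseC_jS K (d * e) hmod e d rfl
  have hfd : FiniteDimensional (baseC K N)
      (IntermediateField.adjoin (baseC K N) (divisorExpansionsC K N)) :=
    IntermediateField.finiteDimensional_adjoin hint
  rw [IntermediateField.relrank_eq_rank_of_le (baseC_le_full K N)]
  have hle : IntermediateField.extendScalars (baseC_le_full K N) ≤
      IntermediateField.adjoin (baseC K N) (divisorExpansionsC K N) := by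
    intro x hx
    have hx' : x ∈ modularFunctionFieldFullC K N := hx
    have h2 : modularFunctionFieldFullC K N ≤
        (IntermediateField.adjoin (baseC K N) (divisorExpansionsC K N)).restrictScalars K := by
      rw [modularFunctionFieldFullC, IntermediateField.adjoin_le_iff]
      intro y hy
      exact IntermediateField.subset_adjoin (baseC K N) _ hy
    exact h2 hx'
  have h1 : Module.rank (baseC K N) (IntermediateField.extendScalars (baseC_le_full K N)) ≤
      Module.rank (baseC K N) (IntermediateField.adjoin (baseC K N) (divisorExpansionsC K N)) :=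
    Submodule.rank_mono (R := baseC K N) (M := LaurentSeries K)
      (s := (IntermediateField.extendScalars (baseC_le_full K N)).toSubalgebra.toSubmodule)
      (t := (IntermediateField.adjoin (baseC K N)
        (divisorExpansionsC K N)).toSubalgebra.toSubmodule) hle
  exact h1.trans_lt (Module.rank_lt_aleph0 _ _)

end Finite

section AlgClosed

/-- `(B_M)` for a field `K` of characteristic `ℓ`, in the canonical shape of the skeleton statement
`jS_prime_not_mem_adjoin_divisors`: for `p ∤ M`, `p ≠ ℓ`, `ℓ ∤ M`: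
`j(q^p) ∉ K(j(q^d) : d ∣ M)`. -/
def StatementBM (K : Type) [Field K] (ℓ : ℕ) : Prop :=
  ∀ M : ℕ, M ≠ 0 → ¬ ℓ ∣ M → ∀ p : ℕ, p.Prime → p ≠ ℓ → ¬ p ∣ M →
    jS K 1 p ∉ IntermediateField.adjoin K {x : LaurentSeries K | ∃ d, d ∣ M ∧ x = jS K 1 d}

theorem exists_primitiveRoot_unit (K : Type) [Field K] [IsAlgClosed K] (ℓ : ℕ) [Fact ℓ.Prime]
    [CharP K ℓ] (p : ℕ) (hp : p.Prime) (hpℓ : p ≠ ℓ) : ∃ ζ : Kˣ, IsPrimitiveRoot ζ p := by
  have hpK : (p : K) ≠ 0 := by
    intro h
    have h1 := (CharP.cast_eq_zero_iff K ℓ p).mp h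
    exact hpℓ ((Nat.prime_dvd_prime_iff_eq (Fact.out : ℓ.Prime) hp).mp h1).symm
  haveI : NeZero (p : K) := ⟨hpK⟩
  obtain ⟨ζ, hζ⟩ := HasEnoughRootsOfUnity.exists_primitiveRoot K p
  exact ⟨(hζ.isUnit hp.ne_zero).unit, IsPrimitiveRoot.coe_units_iff.mp (by simpa using hζ)⟩

/-- **M4a over an algebraically closed field**, from `(B_M)`. -/
theorem dedekindPsi_le_relfinrank_algClosed_of_BM (hmod : HasModPolys) (K : Type) [Field K]
    [IsAlgClosed K] (ℓ : ℕ) [Fact ℓ.Prime] [CharP K ℓ] (hBM : StatementBM K ℓ)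
    (N : ℕ) (hN : N ≠ 0) (hℓN : ¬ ℓ ∣ N) :
    dedekindPsi N ≤ IntermediateField.relfinrank (IntermediateField.adjoin K {jS K 1 N})
      (IntermediateField.adjoin K {x | ∃ d, d ∣ N ∧ x = jS K 1 d}) := by
  haveI : NeZero N := ⟨hN⟩
  rw [adjoin_setOf_jS_eq_full K N hN, jS_one_left]
  show dedekindPsi N ≤ IntermediateField.relfinrank (baseC K N) (modularFunctionFieldFullC K N)
  have hpℓ : ∀ p : ℕ, p ∣ N → p ≠ ℓ := fun p hpN h => hℓN (h ▸ hpN)
  have hcard : (dedekindPsi N : Cardinal) ≤
      IntermediateField.relrank (baseC K N) (modularFunctionFieldFullC K N) := by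
    refine dedekindPsi_le_relrank K N (fun p hp hpN => exists_primitiveRoot_unit K ℓ p hp
      (hpℓ p hpN)) (fun p hp _ => hmod p hp) ?_
    intro p M hp hpM hMpN
    have hM : M ≠ 0 := fun h => hN (by rw [h, zero_mul] at hMpN; exact zero_dvd_iff.mp hMpN)
    have hℓM : ¬ ℓ ∣ M := fun h => hℓN (h.trans ((Dvd.intro p rfl).trans hMpN))
    have h := hBM M hM hℓM p hp (hpℓ p ((Dvd.intro_left M rfl).trans hMpN)) hpM
    rw [adjoin_setOf_jS_eq_full K M hM] at h
    haveI : NeZero p := ⟨hp.ne_zero⟩
    rw [jS_one_left] at h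
    exact h
  have hfin := relrank_baseC_full_lt_aleph0 K N (fun p hp _ => hmod p hp)
  rw [IntermediateField.relfinrank_eq_toNat_relrank]
  have h2 := Cardinal.toNat_le_toNat hcard hfin
  rwa [Cardinal.toNat_natCast] at h2

end AlgClosed

end Fermat.Agent.S28.H53
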