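import Mathlib
import Fermat.Agent.S28.H53.AlgClosed

/-!
# S28 / M4a (helper53): descent of the degree lower bound from `K̄` to `K`

`relfinrank_le_of_ringHom`: a general field-theoretic descent lemma (a spanning set of `B₀/A₀`
maps to a spanning set of the compositum).
-/

set_option autoImplicit false

noncomputable section

namespace Fermat.Agent.S28.H53

open ModularCurve Polynomial Fermat.Agent.S28

universe u

section General

/-- **Descent of degrees along a ring homomorphism.** Let `φ : L₀ → L` be a homomorphism of fields,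
`A₀ ≤ B₀` subfields of `L₀` with `B₀ / A₀` finite, `A ≤ B` subfields of `L` with `φ(A₀) ⊆ A`
and `B` generated (over some base field `K ⊆ A`) by the image of a subset of `B₀`.
Then `[B : A] ≤ [B₀ : A₀]`. -/
theorem relfinrank_le_of_ringHom {F K : Type*} {L₀ L : Type u} [Field F] [Field K] [Field L₀]
    [Field L] [Algebra F L₀] [Algebra K L] (φ : L₀ →+* L)
    (A₀ B₀ : IntermediateField F L₀) (A B : IntermediateField K L)
    (hA₀B₀ : A₀ ≤ B₀) (hAB : A ≤ B) (hA : ∀ x ∈ A₀, φ x ∈ A)
    (S₀ : Set L₀) (hS₀ : S₀ ⊆ B₀) (hB : B ≤ IntermediateField.adjoin K (φ '' S₀))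
    (hfin : IntermediateField.relrank A₀ B₀ < Cardinal.aleph0) :
    IntermediateField.relfinrank A B ≤ IntermediateField.relfinrank A₀ B₀ := by
  let φA : A₀ →+* A := (φ.comp A₀.val.toRingHom).codRestrict A.toSubring (fun x => hA x x.2)
  letI : Algebra A₀ A := φA.toAlgebra
  letI : Algebra A₀ L := ((algebraMap A L).comp φA).toAlgebra
  haveI : IsScalarTower A₀ A L := IsScalarTower.of_algebraMap_eq (fun _ => rfl)
  let B₀' : IntermediateField A₀ L := Subfield.toIntermediateField (B₀.toSubfield.map φ) (by
    intro x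
    exact ⟨x.1, hA₀B₀ x.2, rfl⟩)
  let g : (IntermediateField.extendScalars hA₀B₀) →ₗ[A₀] B₀' :=
    { toFun := fun x => ⟨φ x.1, ⟨x.1, x.2, rfl⟩⟩
      map_add' := fun x y => Subtype.ext (map_add φ x.1 y.1)
      map_smul' := fun a x => Subtype.ext (by
        show φ (a.1 * x.1) = φ a.1 * φ x.1
        exact map_mul φ a.1 x.1) }
  have hg : Function.Surjective g := by
    rintro ⟨_, ⟨x, hx, rfl⟩⟩
    exact ⟨⟨x, hx⟩, rfl⟩
  have hrank1 : Module.rank A₀ B₀' ≤ Module.rank A₀ (IntermediateField.extendScalars hA₀B₀) :=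
    LinearMap.rank_le_of_surjective g hg
  rw [IntermediateField.relrank_eq_rank_of_le hA₀B₀] at hfin
  haveI : Module.Finite A₀ B₀' := Module.rank_lt_aleph0_iff.mp (hrank1.trans_lt hfin)
  haveI : Algebra.IsAlgebraic A₀ B₀' := Algebra.IsAlgebraic.of_finite _ _
  have hrank2 : Module.rank A (IntermediateField.adjoin A (B₀' : Set L)) ≤ Module.rank A₀ B₀' :=
    IntermediateField.adjoin_rank_le_of_isAlgebraic_right A B₀'
  have hle : IntermediateField.extendScalars hAB ≤ IntermediateField.adjoin A (B₀' : Set L) := by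
    intro x hx
    have hx' : x ∈ B := hx
    have h2 : B ≤ (IntermediateField.adjoin A (B₀' : Set L)).restrictScalars K := by
      refine hB.trans (IntermediateField.adjoin_le_iff.mpr ?_)
      rintro _ ⟨s, hs, rfl⟩
      exact IntermediateField.subset_adjoin A _ ⟨s, hS₀ hs, rfl⟩
    exact h2 hx'
  have hrank3 : Module.rank A (IntermediateField.extendScalars hAB) ≤
      Module.rank A (IntermediateField.adjoin A (B₀' : Set L)) :=
    Submodule.rank_mono (R := A) (M := L)
      (s := (IntermediateField.extendScalars hAB).toSubalgebra.toSubmodule)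
      (t := (IntermediateField.adjoin A (B₀' : Set L)).toSubalgebra.toSubmodule) hle
  rw [IntermediateField.relfinrank_eq_toNat_relrank, IntermediateField.relfinrank_eq_toNat_relrank,
    IntermediateField.relrank_eq_rank_of_le hAB, IntermediateField.relrank_eq_rank_of_le hA₀B₀]
  exact Cardinal.toNat_le_toNat (hrank3.trans (hrank2.trans hrank1)) hfin

end General

section Coeff

variable {F K : Type} [Field F] [Field K]

theorem coeffMap_algebraMap (f : F →+* K) (c : F) :
    coeffMap f (algebraMap F (LaurentSeries F) c) = algebraMap K (LaurentSeries K) (f c) := by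
  rw [algebraMap_laurentSeries_eq_single, algebraMap_laurentSeries_eq_single, coeffMap_single]

theorem coeffMap_qExpand_jqModC (f : F →+* K) (d : ℕ) [NeZero d] :
    coeffMap f (qExpand F d (jqModC F)) = qExpand K d (jqModC K) := by
  rw [← jS_one_left, ← jS_one_left, coeffMap_jS, map_one]

theorem coeffMap_mem_baseC (f : F →+* K) (N : ℕ) [NeZero N] :
    ∀ x ∈ baseC F N, coeffMap f x ∈ baseC K N := by
  let T : IntermediateField F (LaurentSeries F) :=
    Subfield.toIntermediateField ((baseC K N).toSubfield.comap (coeffMap f)) (by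
      intro c
      show coeffMap f (algebraMap F (LaurentSeries F) c) ∈ baseC K N
      rw [coeffMap_algebraMap]
      exact (baseC K N).algebraMap_mem _)
  have hle : baseC F N ≤ T := by
    rw [baseC, IntermediateField.adjoin_le_iff, Set.singleton_subset_iff]
    show coeffMap f (qExpand F N (jqModC F)) ∈ baseC K N
    rw [coeffMap_qExpand_jqModC]
    exact IntermediateField.subset_adjoin K _ rfl
  intro x hx
  exact hle hx

/-- The degree can only drop under extension of the coefficient field. -/
theorem relfinrank_baseC_full_le (f : F →+* K) (N : ℕ) [NeZero N]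
    (hmod : ∀ p : ℕ, p.Prime → p ∣ N → ∃ Φ : Polynomial (Polynomial ℤ), IsModPoly p Φ) :
    IntermediateField.relfinrank (baseC K N) (modularFunctionFieldFullC K N) ≤
      IntermediateField.relfinrank (baseC F N) (modularFunctionFieldFullC F N) := by
  refine relfinrank_le_of_ringHom (coeffMap f) (baseC F N) (modularFunctionFieldFullC F N)
    (baseC K N) (modularFunctionFieldFullC K N) (baseC_le_full F N) (baseC_le_full K N)
    (coeffMap_mem_baseC f N) (divisorExpansionsC F N)
    (IntermediateField.subset_adjoin F _) ?_ (relrank_baseC_full_lt_aleph0 F N hmod)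
  refine IntermediateField.adjoin.mono K _ _ ?_
  rintro x ⟨d, hne, hd, rfl⟩
  exact ⟨qExpand F d (jqModC F), ⟨d, hne, hd, rfl⟩, coeffMap_qExpand_jqModC f d⟩

end Coeff

section Final

/-- **M4a, final form over `𝔽_ℓ`**, from `(B_M)` over the algebraic closure. -/
theorem dedekindPsi_le_relfinrank_of_BM (hmod : HasModPolys) (N : ℕ) [NeZero N] (ℓ : ℕ)
    [Fact ℓ.Prime] (hBM : StatementBM (AlgebraicClosure (ZMod ℓ)) ℓ) (hℓN : ¬ ℓ ∣ N) :
    dedekindPsi N ≤ IntermediateField.relfinrank
      (IntermediateField.adjoin (ZMod ℓ) {jqNModC (ZMod ℓ) N})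
      (modularFunctionFieldFullC (ZMod ℓ) N) := by
  have h1 := dedekindPsi_le_relfinrank_algClosed_of_BM hmod (AlgebraicClosure (ZMod ℓ)) ℓ hBM N
    (NeZero.ne N) hℓN
  rw [adjoin_setOf_jS_eq_full _ N (NeZero.ne N), jS_one_left] at h1
  exact h1.trans (relfinrank_baseC_full_le (algebraMap (ZMod ℓ) (AlgebraicClosure (ZMod ℓ))) N
    (fun p hp _ => hmod p hp))

end Final

end Fermat.Agent.S28.H53
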