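import Mathlib
import Fermat.Agent.S28.H53.Descent
import Fermat.Agent.S28.H8.BM
import Fermat.Agent.S28.H40.CruxFinal

/-!
# S28 / M4a (helper53): FINAL statements, in the shapes of the S28 skeleton

* `jS_prime_not_mem_adjoin_divisors` : `(B_M)` (helper8's `H8.qExpand_not_mem_fullC` + helper40's
  `(B)`), skeleton shape.
* `dedekindPsi_le_relfinrank_algClosed` : `ψ(N) ≤ [K(j(q^d) : d ∣ N) : K(j(q^N))]` over an
  algebraically closed field `K` of characteristic `ℓ ∤ N`.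
* `dedekindPsi_le_relfinrank` : the same over `𝔽_ℓ`.

The only remaining hypothesis is `hmod : HasModPolys` (package M1).
-/

set_option autoImplicit false

noncomputable section

namespace Fermat.Agent.S28

open ModularCurve Polynomial

/-- `(B_M)` in the shape consumed by `H53.dedekindPsi_le_relfinrank_algClosed_of_BM`. -/
theorem H53.statementBM (hmod : HasModPolys) (K : Type) [Field K] [IsAlgClosed K] (ℓ : ℕ)
    [Fact ℓ.Prime] [CharP K ℓ] : H53.StatementBM K ℓ := by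
  intro M hM hℓM p hp hpℓ hpM
  haveI : NeZero M := ⟨hM⟩
  haveI : NeZero p := ⟨hp.ne_zero⟩
  have hchar : ((p * M : ℕ) : K) ≠ 0 := by
    intro h
    have h1 : ℓ ∣ p * M := (CharP.cast_eq_zero_iff K ℓ (p * M)).mp h
    rcases (Nat.Prime.dvd_mul (Fact.out : ℓ.Prime)).mp h1 with h2 | h2
    · exact hpℓ ((Nat.prime_dvd_prime_iff_eq (Fact.out : ℓ.Prime) hp).mp h2).symm
    · exact hℓM h2
  rw [H53.adjoin_setOf_jS_eq_full K M hM, H53.jS_one_left]
  exact H8.qExpand_not_mem_fullC K p M hp hpM hchar (fun r hr _ => hmod r hr)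
    (qExpand_jqModC_not_mem_adjoin hmod K ℓ p hp hpℓ)

/-- M4a-core, over an algebraically closed field of characteristic `ℓ`:
(B_M) for `p ∤ M`, `p ≠ ℓ`, `ℓ ∤ M`: `j(q^p) ∉ K(j(q^d) : d ∣ M)`. -/
theorem jS_prime_not_mem_adjoin_divisors (hmod : HasModPolys) (K : Type) [Field K] [IsAlgClosed K]
    (ℓ : ℕ) [Fact ℓ.Prime] [CharP K ℓ] (M : ℕ) (hM : M ≠ 0) (hℓM : ¬ ℓ ∣ M)
    (p : ℕ) (hp : p.Prime) (hpℓ : p ≠ ℓ) (hpM : ¬ p ∣ M) :
    jS K 1 p ∉ IntermediateField.adjoin K {x | ∃ d, d ∣ M ∧ x = jS K 1 d} :=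
  H53.statementBM hmod K ℓ M hM hℓM p hp hpℓ hpM

/-- M4a, over an algebraically closed field. -/
theorem dedekindPsi_le_relfinrank_algClosed (hmod : HasModPolys) (K : Type) [Field K] [IsAlgClosed K]
    (ℓ : ℕ) [Fact ℓ.Prime] [CharP K ℓ] (N : ℕ) (hN : N ≠ 0) (hℓN : ¬ ℓ ∣ N) :
    dedekindPsi N ≤ IntermediateField.relfinrank (IntermediateField.adjoin K {jS K 1 N})
      (IntermediateField.adjoin K {x | ∃ d, d ∣ N ∧ x = jS K 1 d}) :=
  H53.dedekindPsi_le_relfinrank_algClosed_of_BM hmod K ℓ (H53.statementBM hmod K ℓ) N hN hℓN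

/-- M4a, final form over `𝔽_ℓ`. -/
theorem dedekindPsi_le_relfinrank (hmod : HasModPolys) (N : ℕ) [NeZero N] (ℓ : ℕ) [Fact ℓ.Prime]
    (hℓN : ¬ ℓ ∣ N) :
    dedekindPsi N ≤ IntermediateField.relfinrank
      (IntermediateField.adjoin (ZMod ℓ) {jqNModC (ZMod ℓ) N}) (modularFunctionFieldFullC (ZMod ℓ) N) :=
  H53.dedekindPsi_le_relfinrank_of_BM hmod N ℓ (H53.statementBM hmod _ ℓ) hℓN

end Fermat.Agent.S28
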